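import Fermat.Agent.S12.Contracts
import Fermat.Agent.S12.Start.Frey
import Fermat.Agent.S12.Loc.Out
import Fermat.Agent.S12.AtP.StarP
import Fermat.Agent.S12.Global.Out
import Fermat.Agent.S12.Height.Out

/-!
# S12 : assembly.  `S12 ⟸ S15.Key ∧ S15.M1Out ∧ StartOut`
-/

set_option autoImplicit false

namespace Fermat.Agent.S12

open WeierstrassCurve WeierstrassCurve.Affine WeierstrassCurve.Affine.Point

theorem freyArith : FreyArith where
  Δ_ne := Start.freyInt_Δ_ne_zero
  dvd_Δ := fun P _ hℓ => Start.dvd_Δ_iff P hℓ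
  c₄ := fun P _ hℓ h => Start.not_dvd_c₄ P hℓ h

/-- everything except `START` and the two contracts of S15. -/
theorem s12_of (hKey : S15.Key) (hM1 : S15.M1Out) (hS : StartOut) (P : FreyPackage)
    (hp : 17 ≤ P.p) :
    ¬ HasGaloisStableCofixedLine (K := AlgebraicClosure ℚ) ℚ P.freyCurve P.p :=
  result_of hKey hM1 hS freyArith Loc.twoThree Global.globalOf Loc.starGood AtP.starP
    Height.heightOut P hp

end Fermat.Agent.S12
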