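import Fermat.Statements.S12
import Fermat.Agent.S15.Contracts
import Fermat.Agent.S15.M1.Loc.Stable

/-!
# S12 (no cofixed line on the Frey curve, `p ≥ 17`): TOP LEVEL CONTRACTS (lead: helper21)

ROUTE = "one stage + height" (helper48, msg 5744; refereed by helper91 and helper21).

`W = P.freyCurveInt`, `L = ⟨Q⟩` the cofixed line, `Π = psiProd Q p = ∏_{k=1}^{p-1} ψ₂(kQ) ∈ ℚ`.

```
START     : cofixed line ⟹ Q of order p, G_ℚ acts on Q by the cyclotomic character, 3 ∣ abc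
TWOTHREE  : ⟹ Q ∈ E⁰(A) for A ∣ 2, 3
GLOBAL    : S15.Key + S15.M1Out ⟹ Q ∈ E⁰(A) for all A ∣ ℓ ≠ p, ℓ ∣ abc
STAR      : ⟹ 1 ≤ |Π|_A for EVERY finite place A   (bad ℓ ≠ p: helper6, on main; good ℓ ≠ p; ℓ = p)
HEIGHT    : ⟹ False   (|Π|_∞ ≤ 1 by the product formula, |Π|_∞ > 1 by `anOut` + bounds for `|Δ(z)| y⁶`)
```
-/

set_option autoImplicit false

noncomputable section

namespace Fermat.Agent.S12

open WeierstrassCurve WeierstrassCurve.Affine WeierstrassCurve.Affine.Point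
open Fermat.Agent.S58 Fermat.Agent.S15.M1.Loc

/-- `G_ℚ` acts on `Q` through the mod `p` cyclotomic character. -/
def IsCyc (p : ℕ) {W : WeierstrassCurve ℤ} (Q : EP W) : Prop :=
  ∀ (σ : GQ) (ζ : Qb) (c : ℕ), IsPrimitiveRoot ζ p → σ ζ = ζ ^ c → σ • Q = c • Q

/-- **CONTRACT START** (helper33). -/
def StartOut : Prop :=
  ∀ P : FreyPackage, 17 ≤ P.p →
    HasGaloisStableCofixedLine (K := AlgebraicClosure ℚ) ℚ P.freyCurve P.p →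
      ∃ Q : EP P.freyCurveInt, addOrderOf Q = P.p ∧ IsCyc P.p Q ∧ (3 : ℤ) ∣ P.a * P.b * P.c

/-- **CONTRACT FREY** (helper33): arithmetic of the integral Frey model. -/
structure FreyArith : Prop where
  Δ_ne : ∀ P : FreyPackage, P.freyCurveInt.Δ ≠ 0
  dvd_Δ : ∀ (P : FreyPackage) (ℓ : ℕ), ℓ.Prime →
    ((ℓ : ℤ) ∣ P.freyCurveInt.Δ ↔ (ℓ : ℤ) ∣ P.a * P.b * P.c)
  c₄ : ∀ (P : FreyPackage) (ℓ : ℕ), ℓ.Prime → (ℓ : ℤ) ∣ P.a * P.b * P.c →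
    ¬ (ℓ : ℤ) ∣ P.freyCurveInt.c₄

/-- **CONTRACT TWOTHREE** (helper6). -/
def TwoThree : Prop :=
  ∀ (W : WeierstrassCurve ℤ) (p ℓ : ℕ), p.Prime → 5 ≤ p → (ℓ = 2 ∨ ℓ = 3) → W.Δ ≠ 0 →
    (ℓ : ℤ) ∣ W.Δ → ¬ (ℓ : ℤ) ∣ W.c₄ → ∀ Q : EP W, addOrderOf Q = p → IsCyc p Q →
      ∀ A : ValuationSubring Qb, A.LiesOverPrime ℓ → W.InZeroComponentAt A Q

/-- the conclusion of GLOBAL. -/
def GlobalOut : Prop :=
  ∀ p : ℕ, p.Prime → p ∉ ({2, 3, 5, 7, 13} : Finset ℕ) → ∀ W : WeierstrassCurve ℤ, W.Δ ≠ 0 →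
    ∀ Q : EP W, (∀ σ : GQ, σ • Q ∈ AddSubgroup.zmultiples Q) → addOrderOf Q = p →
      (2 : ℤ) ∣ W.Δ → ¬ (2 : ℤ) ∣ W.c₄ →
      (∀ A : ValuationSubring Qb, A.LiesOverPrime 2 → W.InZeroComponentAt A Q) →
      (3 : ℤ) ∣ W.Δ → ¬ (3 : ℤ) ∣ W.c₄ →
      (∀ A : ValuationSubring Qb, A.LiesOverPrime 3 → W.InZeroComponentAt A Q) →
      ∀ ℓ : ℕ, ℓ.Prime → ℓ ≠ p → (ℓ : ℤ) ∣ W.Δ → ¬ (ℓ : ℤ) ∣ W.c₄ →
        ∀ A : ValuationSubring Qb, A.LiesOverPrime ℓ → W.InZeroComponentAt A Q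

/-- **CONTRACT GLOBAL** (helper92). -/
def GlobalOf : Prop := S15.Key → S15.M1Out → GlobalOut

/-- **CONTRACT STAR-GOOD** (helper6). -/
def StarGood : Prop :=
  ∀ (W : WeierstrassCurve ℤ) (p ℓ : ℕ), p.Prime → p ≠ 2 → ℓ.Prime → ℓ ≠ p → ¬ (ℓ : ℤ) ∣ W.Δ →
    ∀ Q : EP W, addOrderOf Q = p → ∀ A : ValuationSubring Qb, A.LiesOverPrime ℓ →
      A.valuation (psiProd Q p) = 1

/-- **CONTRACT STAR-P** (helper80, helper2, helper20). -/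
def StarP : Prop :=
  ∀ (P : FreyPackage) (Q : EP P.freyCurveInt), addOrderOf Q = P.p → IsCyc P.p Q →
    ∀ A : ValuationSubring Qb, A.LiesOverPrime P.p → 1 ≤ A.valuation (psiProd Q P.p)

/-- **CONTRACT HEIGHT** (helper48, helper91, ...). -/
def HeightOut : Prop :=
  ∀ P : FreyPackage, 17 ≤ P.p → ∀ Q : EP P.freyCurveInt, addOrderOf Q = P.p →
    (∀ σ : GQ, σ • Q ∈ AddSubgroup.zmultiples Q) →
    (∀ ℓ : ℕ, ℓ.Prime → ∀ A : ValuationSubring Qb, A.LiesOverPrime ℓ →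
      1 ≤ A.valuation (psiProd Q P.p)) → False

/-- a cyclotomic point generates a stable subgroup. -/
theorem IsCyc.stable {p : ℕ} (hp : p ≠ 0) {W : WeierstrassCurve ℤ} {Q : EP W} (h : IsCyc p Q)
    (σ : GQ) : σ • Q ∈ AddSubgroup.zmultiples Q := by
  have : NeZero p := ⟨hp⟩
  have : NeZero (p : Qb) := ⟨Nat.cast_ne_zero.2 hp⟩
  obtain ⟨ζ, hζ⟩ := HasEnoughRootsOfUnity.exists_primitiveRoot Qb p
  have h1 : (σ ζ) ^ p = 1 := by rw [← map_pow, hζ.pow_eq_one, map_one]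
  obtain ⟨c, -, hc⟩ := hζ.eq_pow_of_pow_eq_one h1
  rw [h σ ζ c hζ hc.symm]
  exact AddSubgroup.nsmul_mem _ (AddSubgroup.mem_zmultiples Q) c

/-- **S12 from the contracts.** -/
theorem result_of (hKey : S15.Key) (hM1 : S15.M1Out) (hS : StartOut) (hF : FreyArith)
    (hT : TwoThree) (hG : GlobalOf) (hSG : StarGood) (hSP : StarP) (hH : HeightOut)
    (P : FreyPackage) (hp : 17 ≤ P.p) :
    ¬ HasGaloisStableCofixedLine (K := AlgebraicClosure ℚ) ℚ P.freyCurve P.p := by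
  intro hline
  obtain ⟨Q, hQ, hcyc, h3⟩ := hS P hp hline
  have hpp := P.pp
  have hp2 : P.p ≠ 2 := by omega
  have hodd : Odd P.p := hpp.odd_of_ne_two hp2
  have hΔ := hF.Δ_ne P
  have hst := hcyc.stable hpp.ne_zero
  have h2 : (2 : ℤ) ∣ P.a * P.b * P.c := P.two_dvd_abc
  have h2Δ : (2 : ℤ) ∣ P.freyCurveInt.Δ := (hF.dvd_Δ P 2 Nat.prime_two).2 h2
  have h2c : ¬ (2 : ℤ) ∣ P.freyCurveInt.c₄ := hF.c₄ P 2 Nat.prime_two h2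
  have h3Δ : (3 : ℤ) ∣ P.freyCurveInt.Δ := (hF.dvd_Δ P 3 Nat.prime_three).2 h3
  have h3c : ¬ (3 : ℤ) ∣ P.freyCurveInt.c₄ := hF.c₄ P 3 Nat.prime_three h3
  have hp' : P.p ∉ ({2, 3, 5, 7, 13} : Finset ℕ) := by
    simp only [Finset.mem_insert, Finset.mem_singleton, not_or]
    omega
  have hin := hG hKey hM1 P.p hpp hp' P.freyCurveInt hΔ Q hst hQ h2Δ h2c
    (hT _ P.p 2 hpp (by omega) (Or.inl rfl) hΔ h2Δ h2c Q hQ hcyc) h3Δ h3c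
    (hT _ P.p 3 hpp (by omega) (Or.inr rfl) hΔ h3Δ h3c Q hQ hcyc)
  refine hH P hp Q hQ hst ?_
  intro ℓ hℓ A hA
  by_cases hℓp : ℓ = P.p
  · subst hℓp
    exact hSP P Q hQ hcyc A hA
  by_cases hd : (ℓ : ℤ) ∣ P.freyCurveInt.Δ
  · have hc : ¬ (ℓ : ℤ) ∣ P.freyCurveInt.c₄ := hF.c₄ P ℓ hℓ ((hF.dvd_Δ P ℓ hℓ).1 hd)
    have hM : Mult P.freyCurveInt A := mult_of hℓ hΔ hd hc hA
    have hNv : A.valuation ((P.p : ℕ) : Qb) = 1 :=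
      val_natCast_eq_one hℓ hA (fun h => hℓp ((Nat.prime_dvd_prime_iff_eq hℓ hpp).1 h))
    exact (hM.val_psiProd_eq_one hodd hNv hQ (hin ℓ hℓ hℓp hd hc A hA)).ge
  · exact (hSG _ P.p ℓ hpp hp2 hℓ hℓp hd Q hQ A hA).ge

end Fermat.Agent.S12
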